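import Fermat.Agent.Jac.Defs

/-! # S25: finiteness of the cohomology of line bundle data -/

set_option autoImplicit false

universe u

open TensorProduct Polynomial

namespace FLTAgent.Jac.Coh

open LineData

variable {k : Type u} [Field k] {M : Model k} {A : Type u} [CommRing A] [Algebra k A]

/-- The coordinate `x` on `U₊ × Spec A`. -/
noncomputable abbrev xh (M : Model k) (A : Type u) [CommRing A] [Algebra k A] : M.Ap A :=
  (1 : A) ⊗ₜ M.x

/-- The coordinate `y` on `U₋ × Spec A`. -/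
noncomputable abbrev yh (M : Model k) (A : Type u) [CommRing A] [Algebra k A] : M.Am A :=
  (1 : A) ⊗ₜ M.y

theorem xU_val : (M.xU A : M.Apm A) = (1 : A) ⊗ₜ M.ip M.x := rfl

theorem xU_inv_val : (↑(M.xU A)⁻¹ : M.Apm A) = (1 : A) ⊗ₜ M.im M.y := rfl

theorem ipA_xh : M.ipA A (xh M A) = (M.xU A : M.Apm A) := by simp [Model.ipA, xU_val]

theorem imA_yh : M.imA A (yh M A) = (↑(M.xU A)⁻¹ : M.Apm A) := by simp [Model.imA, xU_inv_val]

theorem rhop_smul (L : LineData M A) (a : A) (m : L.Mp) : L.ρp (a • m) = a • L.ρp m := by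
  rw [← IsScalarTower.algebraMap_smul (M.Ap A) a m, map_smulₛₗ,
    ← IsScalarTower.algebraMap_smul (M.Apm A) a (L.ρp m)]
  congr 1
  exact (M.ipA A).commutes a

theorem rhom_smul (L : LineData M A) (a : A) (m : L.Mm) : L.ρm (a • m) = a • L.ρm m :=
  rhop_smul L.swap a m

theorem rhop_ring (L : LineData M A) (c : M.Ap A) (m : L.Mp) :
    L.ρp (c • m) = M.ipA A c • L.ρp m := map_smulₛₗ L.ρp c m

theorem rhom_ring (L : LineData M A) (c : M.Am A) (m : L.Mm) :
    L.ρm (c • m) = M.imA A c • L.ρm m := map_smulₛₗ L.ρm c m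

theorem rhop_xh (L : LineData M A) (i : ℕ) (m : L.Mp) :
    L.ρp (xh M A ^ i • m) = (M.xU A : M.Apm A) ^ i • L.ρp m := by
  rw [rhop_ring, map_pow, ipA_xh]

theorem rhom_yh (L : LineData M A) (i : ℕ) (m : L.Mm) :
    L.ρm (yh M A ^ i • m) = (↑(M.xU A)⁻¹ : M.Apm A) ^ i • L.ρm m := by
  rw [rhom_ring, map_pow, imA_yh]

theorem rhop_surj_le (L : LineData M A) (n : L.N) :
    ∃ i : ℕ, ∀ T, i ≤ T → ∃ m, (M.xU A : M.Apm A) ^ T • n = L.ρp m := by
  obtain ⟨i, m, hm⟩ := L.ρp_surj n
  refine ⟨i, fun T hT => ⟨xh M A ^ (T - i) • m, ?_⟩⟩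
  rw [rhop_xh, ← hm, smul_smul, ← pow_add, Nat.sub_add_cancel hT]

theorem rhom_surj_le (L : LineData M A) (n : L.N) :
    ∃ i : ℕ, ∀ T, i ≤ T → ∃ m, (↑(M.xU A)⁻¹ : M.Apm A) ^ T • n = L.ρm m :=
  rhop_surj_le L.swap n

theorem exists_uniform_p (L : LineData M A) {ι : Type*} [Fintype ι] (n : ι → L.N) :
    ∃ S : ℕ, ∀ T, S ≤ T → ∀ i, ∃ m, (M.xU A : M.Apm A) ^ T • n i = L.ρp m := by
  choose s hs using fun i => rhop_surj_le L (n i)
  exact ⟨Finset.univ.sup s, fun T hT i =>
    hs i T (le_trans (Finset.le_sup (Finset.mem_univ i)) hT)⟩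

theorem exists_uniform_m (L : LineData M A) {ι : Type*} [Fintype ι] (n : ι → L.N) :
    ∃ S : ℕ, ∀ T, S ≤ T → ∀ i, ∃ m, (↑(M.xU A)⁻¹ : M.Apm A) ^ T • n i = L.ρm m :=
  exists_uniform_p L.swap n

/-! ## Generators -/

theorem mem_span_xh (c : M.Ap A) (b : Fin M.d → M.Rp)
    (hb : Function.Surjective fun c : Fin M.d → k[X] => ∑ i, aeval M.x (c i) * b i) :
    c ∈ Submodule.span A
      (Set.range fun v : ℕ × Fin M.d => xh M A ^ v.1 * ((1 : A) ⊗ₜ b v.2)) := by
  induction c using TensorProduct.induction_on with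
  | zero => simp
  | tmul a r =>
    obtain ⟨p, rfl⟩ := hb r
    rw [show a ⊗ₜ[k] (∑ i, aeval M.x (p i) * b i) =
      a • ((1 : A) ⊗ₜ[k] (∑ i, aeval M.x (p i) * b i)) from by
        simp [TensorProduct.smul_tmul'], TensorProduct.tmul_sum]
    refine Submodule.smul_mem _ _ (Submodule.sum_mem _ fun i _ => ?_)
    rw [aeval_eq_sum_range, Finset.sum_mul, TensorProduct.tmul_sum]
    refine Submodule.sum_mem _ fun j _ => ?_
    rw [smul_mul_assoc, TensorProduct.tmul_smul, ← algebraMap_smul A ((p i).coeff j)]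
    refine Submodule.smul_mem _ _ (Submodule.subset_span ⟨(j, i), ?_⟩)
    simp [Algebra.TensorProduct.tmul_pow]
  | add c c' h h' => exact add_mem h h'

theorem exists_gen (L : LineData M A) :
    ∃ (n : ℕ) (g : Fin n × Fin M.d → L.Mp),
      Submodule.span A (Set.range fun v : ℕ × (Fin n × Fin M.d) => xh M A ^ v.1 • g v.2) = ⊤ := by
  obtain ⟨n, w, hw⟩ := Module.Finite.exists_fin (R := M.Ap A) (M := L.Mp)
  obtain ⟨b, hb⟩ := M.basis_p
  refine ⟨n, fun v => (((1 : A) ⊗ₜ[k] b v.2 : M.Ap A)) • w v.1, eq_top_iff.mpr fun m _ => ?_⟩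
  have hm : m ∈ Submodule.span (M.Ap A) (Set.range w) := hw ▸ Submodule.mem_top
  obtain ⟨c, rfl⟩ := (Submodule.mem_span_range_iff_exists_fun _).mp hm
  refine Submodule.sum_mem _ fun j _ => ?_
  have := mem_span_xh (c j) b hb.2
  generalize c j = w' at this ⊢
  induction this using Submodule.span_induction with
  | mem z hz =>
    obtain ⟨⟨i, l⟩, rfl⟩ := hz
    exact Submodule.subset_span ⟨(i, (j, l)), (mul_smul _ _ _).symm⟩
  | zero => simp
  | add z z' _ _ h h' => rw [add_smul]; exact add_mem h h'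
  | smul a z _ h => rw [smul_assoc]; exact Submodule.smul_mem _ _ h

/-- `N` is generated by `ρp` and finitely many elements moved by negative powers of `x`. -/
theorem exists_gen_N (L : LineData M A) :
    ∃ (n : ℕ) (g : Fin n → L.Mp), ∀ v : L.N, v ∈
      Submodule.span A (Set.range L.ρp ∪ Set.range fun w : ℕ × Fin n =>
        (↑(M.xU A)⁻¹ : M.Apm A) ^ w.1 • L.ρp (g w.2)) := by
  obtain ⟨n, g, hg⟩ := exists_gen L
  let e := Fintype.equivFin (Fin n × Fin M.d)
  refine ⟨_, g ∘ e.symm, fun v => ?_⟩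
  obtain ⟨i, m, hm⟩ := L.ρp_surj v
  have hv : v = (↑(M.xU A)⁻¹ : M.Apm A) ^ i • L.ρp m := by
    rw [← hm, smul_smul, ← mul_pow, Units.inv_mul, one_pow, one_smul]
  rw [hv]
  have : m ∈ Submodule.span A
      (Set.range fun v : ℕ × (Fin n × Fin M.d) => xh M A ^ v.1 • g v.2) := hg ▸ Submodule.mem_top
  clear hm hv v
  induction this using Submodule.span_induction with
  | mem z hz =>
    obtain ⟨⟨j, l⟩, rfl⟩ := hz
    rcases le_total i j with h | h
    · refine Submodule.subset_span (Or.inl ⟨xh M A ^ (j - i) • g l, ?_⟩)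
      obtain ⟨s, rfl⟩ := Nat.exists_eq_add_of_le h
      rw [rhop_xh, rhop_xh, smul_smul, pow_add, ← mul_assoc, ← mul_pow, Units.inv_mul,
        one_pow, one_mul, Nat.add_sub_cancel_left]
    · refine Submodule.subset_span (Or.inr ⟨(i - j, e l), ?_⟩)
      obtain ⟨s, rfl⟩ := Nat.exists_eq_add_of_le h
      simp only [Function.comp_apply, Equiv.symm_apply_apply]
      rw [rhop_xh, smul_smul, pow_add, mul_comm _ (_ ^ s), mul_assoc, ← mul_pow, Units.inv_mul,
        one_pow, mul_one, Nat.add_sub_cancel_left]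
  | zero => rw [map_zero, smul_zero]; exact zero_mem _
  | add z z' _ _ h h' => rw [map_add, smul_add]; exact add_mem h h'
  | smul a z _ h => rw [rhop_smul, smul_comm]; exact Submodule.smul_mem _ _ h

theorem diff_apply (L : LineData M A) (v : L.Mp × L.Mm) :
    L.diff v = L.ρp v.1 - L.ρm v.2 := rfl

theorem rhop_mem_range (L : LineData M A) (m : L.Mp) : L.ρp m ∈ LinearMap.range L.diff :=
  ⟨(m, 0), by rw [diff_apply, map_zero, sub_zero]⟩

theorem rhom_mem_range (L : LineData M A) (m : L.Mm) : L.ρm m ∈ LinearMap.range L.diff :=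
  ⟨(0, -m), by rw [diff_apply, map_zero, map_neg, sub_neg_eq_add, zero_add]⟩

theorem finite_quot (L : LineData M A) : Module.Finite A L.H1 := by
  obtain ⟨n, g, hg⟩ := exists_gen_N L
  obtain ⟨S, hS⟩ := exists_uniform_m L fun l => L.ρp (g l)
  let w : Fin S × Fin n → L.H1 := fun v =>
    Submodule.Quotient.mk ((↑(M.xU A)⁻¹ : M.Apm A) ^ (v.1 : ℕ) • L.ρp (g v.2))
  refine Module.Finite.of_fg_top ⟨(Set.finite_range w).toFinset, eq_top_iff.mpr fun c hc => ?_⟩
  clear hc
  rw [Set.Finite.coe_toFinset]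
  obtain ⟨v, rfl⟩ := Submodule.Quotient.mk_surjective _ c
  induction hg v using Submodule.span_induction with
  | mem z hz =>
    rcases hz with ⟨m, rfl⟩ | ⟨⟨t, l⟩, rfl⟩
    · rw [(Submodule.Quotient.mk_eq_zero _).mpr (rhop_mem_range L m)]
      exact zero_mem _
    · by_cases ht : t < S
      · exact Submodule.subset_span ⟨(⟨t, ht⟩, l), rfl⟩
      · obtain ⟨m, hm⟩ := hS t (not_lt.mp ht) l
        dsimp only
        rw [hm, (Submodule.Quotient.mk_eq_zero _).mpr (rhom_mem_range L m)]
        exact zero_mem _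
  | zero => simp
  | add z z' _ _ h h' => rw [Submodule.Quotient.mk_add]; exact add_mem h h'
  | smul a z _ h => rw [Submodule.Quotient.mk_smul]; exact Submodule.smul_mem _ _ h

theorem exists_twist_surjective (L : LineData M A) :
    ∃ n₀ : ℕ, ∀ n : ℕ, n₀ ≤ n → (L.twist n).Acyclic := by
  obtain ⟨r, g, hg⟩ := exists_gen_N L
  obtain ⟨S, hS⟩ := exists_uniform_m L fun l => L.ρp (g l)
  refine ⟨S, fun n hn v => ?_⟩
  suffices (v : L.N) ∈ LinearMap.range (L.twist n).diff from this
  induction hg v using Submodule.span_induction with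
  | mem z hz =>
    rcases hz with ⟨m, rfl⟩ | ⟨⟨t, l⟩, rfl⟩
    · exact rhop_mem_range (L.twist n) m
    · obtain ⟨m, hm⟩ := hS (t + n) (hn.trans (Nat.le_add_left n t)) l
      have : (↑(M.xU A)⁻¹ : M.Apm A) ^ t • L.ρp (g l) = (L.twist n).ρm m := by
        change _ = (↑(M.xU A ^ (n : ℤ)) : M.Apm A) • L.ρm m
        rw [← hm, smul_smul, zpow_natCast, Units.val_pow_eq_pow_val, pow_add,
          mul_left_comm, ← mul_pow, Units.mul_inv, one_pow, mul_one]
      dsimp only
      rw [this]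
      exact rhom_mem_range (L.twist n) m
  | zero => exact zero_mem _
  | add z z' _ _ h h' => exact add_mem h h'
  | smul a z _ h => exact Submodule.smul_mem _ _ h

/-! ## Sections of `O(D)` -/

section coord

variable {R R' : Type u} [AddCommGroup R] [Module k R] [AddCommGroup R'] [Module k R']
  {ι : Type u} [DecidableEq ι] (e : Module.Basis ι k A)

theorem coord_lTensor (g : R →ₗ[k] R') (z : A ⊗[k] R) (i : ι) :
    TensorProduct.equivFinsuppOfBasisLeft e (g.lTensor A z) i =
      g (TensorProduct.equivFinsuppOfBasisLeft e z i) := by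
  induction z using TensorProduct.induction_on with
  | zero => simp
  | tmul a r => simp
  | add z z' h h' => simp [h, h']

end coord

/-- Pairs `(c, b)` with `c = x ^ D * b` over `k`. -/
noncomputable def pairsK (M : Model k) (D : ℕ) : Submodule k (M.Rp × M.Rm) :=
  LinearMap.ker ((M.ip.toLinearMap.comp (LinearMap.fst k M.Rp M.Rm)) -
    ((LinearMap.mulLeft k (M.ip M.x ^ D)).comp M.im.toLinearMap).comp
      (LinearMap.snd k M.Rp M.Rm))

theorem mem_pairsK {D : ℕ} {v : M.Rp × M.Rm} :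
    v ∈ pairsK M D ↔ M.ip v.1 = M.ip M.x ^ D * M.im v.2 := by
  simp [pairsK, sub_eq_zero]

theorem finite_quot_y (M : Model k) : Module.Finite k (M.Rm ⧸ Ideal.span {M.y}) := by
  obtain ⟨b, hb⟩ := M.basis_m
  refine Module.Finite.of_fg_top ⟨(Set.finite_range fun i =>
    Ideal.Quotient.mk (Ideal.span {M.y}) (b i)).toFinset, eq_top_iff.mpr fun c _ => ?_⟩
  rw [Set.Finite.coe_toFinset]
  obtain ⟨r, rfl⟩ := Ideal.Quotient.mk_surjective c
  obtain ⟨p, rfl⟩ := hb.2 r
  rw [map_sum]
  refine Submodule.sum_mem _ fun i _ => ?_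
  have : Ideal.Quotient.mk (Ideal.span {M.y}) (aeval M.y (p i) * b i) =
      (p i).coeff 0 • Ideal.Quotient.mk (Ideal.span {M.y}) (b i) := by
    rw [map_mul, ← Ideal.Quotient.mkₐ_eq_mk k, ← aeval_algHom_apply, Ideal.Quotient.mkₐ_eq_mk,
      show Ideal.Quotient.mk (Ideal.span {M.y}) M.y = 0 from
        Ideal.Quotient.eq_zero_iff_mem.mpr (Ideal.mem_span_singleton_self _),
      aeval_def, eval₂_at_zero, Algebra.smul_def]
  rw [this]
  exact Submodule.smul_mem _ _ (Submodule.subset_span ⟨i, rfl⟩)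

theorem fg_pairsK (M : Model k) (D : ℕ) : (pairsK M D).FG := by
  have := finite_quot_y M
  induction D with
  | zero =>
    have hle : pairsK M 0 ≤ Submodule.span k {((1 : M.Rp), (1 : M.Rm))} := by
      rintro ⟨a, b⟩ h
      rw [mem_pairsK, pow_zero, one_mul] at h
      obtain ⟨c, rfl⟩ := M.glob a b h
      refine Submodule.mem_span_singleton.mpr ⟨c, ?_⟩
      have : b = algebraMap k M.Rm c := M.im_inj (by rw [← h]; simp)
      simp [this, Algebra.algebraMap_eq_smul_one]
    exact Submodule.FG.of_le (Submodule.fg_span_singleton _) hle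
  | succ D ih =>
    refine Submodule.fg_of_fg_map_of_fg_inf_ker
      ((Ideal.Quotient.mkₐ k (Ideal.span {M.y})).toLinearMap.comp
        (LinearMap.snd k M.Rp M.Rm)) ?_ ?_
    · exact IsNoetherian.noetherian _
    · refine Submodule.FG.of_le (ih.map (LinearMap.prodMap (LinearMap.id (R := k) (M := M.Rp))
        (LinearMap.mulLeft k M.y))) ?_
      rintro ⟨a, b⟩ ⟨h, hb⟩
      obtain ⟨b', hb'⟩ := Ideal.mem_span_singleton.mp (Ideal.Quotient.eq_zero_iff_mem.mp hb)
      refine ⟨(a, b'), mem_pairsK.mpr ?_, Prod.ext rfl hb'.symm⟩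
      have h' := mem_pairsK.mp h
      rw [h', show b = M.y * b' from hb', map_mul, pow_succ, mul_assoc, ← mul_assoc (M.ip M.x),
        M.ip_x_mul_im_y, one_mul]

/-- Sections of `O(D)` on `U₊ × Spec A`. -/
theorem exists_fg_sections (M : Model k) (A : Type u) [CommRing A] [Algebra k A] (D : ℕ) :
    ∃ G : Submodule A (M.Ap A), G.FG ∧ ∀ (a : M.Ap A) (b : M.Am A),
      M.ipA A a = (M.xU A : M.Apm A) ^ D * M.imA A b → a ∈ G := by
  classical
  obtain ⟨s, hs⟩ := (fg_pairsK M D).map (LinearMap.fst k M.Rp M.Rm)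
  refine ⟨Submodule.span A ((fun r => (1 : A) ⊗ₜ r) '' (s : Set M.Rp)),
    Submodule.fg_span (s.finite_toSet.image _), fun a b h => ?_⟩
  let e := Module.Free.chooseBasis k A
  have hp : ∀ z : M.Ap A, M.ipA A z = M.ip.toLinearMap.lTensor A z := by
    intro z
    induction z using TensorProduct.induction_on with
    | zero => simp
    | tmul a r => simp [Model.ipA]
    | add z z' h h' => simp [h, h']
  have hm : ∀ z : M.Am A, (M.xU A : M.Apm A) ^ D * M.imA A z =
      ((LinearMap.mulLeft k (M.ip M.x ^ D)).comp M.im.toLinearMap).lTensor A z := by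
    intro z
    induction z using TensorProduct.induction_on with
    | zero => simp
    | tmul a r => simp [Model.imA, xU_val, Algebra.TensorProduct.tmul_pow]
    | add z z' h h' => simp [mul_add, h, h']
  rw [hp, hm] at h
  have hco : ∀ i, TensorProduct.equivFinsuppOfBasisLeft e a i ∈
      Submodule.span k (s : Set M.Rp) := by
    intro i
    rw [hs]
    refine ⟨(TensorProduct.equivFinsuppOfBasisLeft e a i,
      TensorProduct.equivFinsuppOfBasisLeft e b i), mem_pairsK.mpr ?_, rfl⟩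
    have := congrArg (fun z => TensorProduct.equivFinsuppOfBasisLeft e z i) h
    rw [coord_lTensor, coord_lTensor] at this
    exact this
  rw [← (TensorProduct.equivFinsuppOfBasisLeft e).symm_apply_apply a,
    TensorProduct.equivFinsuppOfBasisLeft_symm_apply]
  refine Submodule.sum_mem _ fun i _ => ?_
  dsimp only
  rw [show e i ⊗ₜ[k] (TensorProduct.equivFinsuppOfBasisLeft e a i) =
    e i • ((1 : A) ⊗ₜ[k] (TensorProduct.equivFinsuppOfBasisLeft e a i)) from by
      simp [TensorProduct.smul_tmul']]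
  refine Submodule.smul_mem _ _ ?_
  have h2 := hco i
  generalize TensorProduct.equivFinsuppOfBasisLeft e a i = w at h2 ⊢
  induction h2 using Submodule.span_induction with
  | mem z hz => exact Submodule.subset_span ⟨z, hz, rfl⟩
  | zero => simp
  | add z z' _ _ h h' => rw [TensorProduct.tmul_add]; exact add_mem h h'
  | smul c z _ h =>
    rw [TensorProduct.tmul_smul, ← algebraMap_smul A c]
    exact Submodule.smul_mem _ _ h

/-- `Γ(C_A, O) = A`. -/
theorem sections_const (a : M.Ap A) (b : M.Am A) (h : M.ipA A a = M.imA A b) :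
    ∃ r : A, a = algebraMap A (M.Ap A) r ∧ b = algebraMap A (M.Am A) r := by
  classical
  let e := Module.Free.chooseBasis k A
  have hp : ∀ z : M.Ap A, M.ipA A z = M.ip.toLinearMap.lTensor A z := by
    intro z
    induction z using TensorProduct.induction_on with
    | zero => simp
    | tmul a r => simp [Model.ipA]
    | add z z' h h' => simp [h, h']
  have hm : ∀ z : M.Am A, M.imA A z = M.im.toLinearMap.lTensor A z := by
    intro z
    induction z using TensorProduct.induction_on with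
    | zero => simp
    | tmul a r => simp [Model.imA]
    | add z z' h h' => simp [h, h']
  have h' := h
  rw [hp, hm] at h'
  have hco : ∀ i, ∃ c : k, TensorProduct.equivFinsuppOfBasisLeft e a i = algebraMap k M.Rp c := by
    intro i
    refine M.glob _ (TensorProduct.equivFinsuppOfBasisLeft e b i) ?_
    have := congrArg (fun z => TensorProduct.equivFinsuppOfBasisLeft e z i) h'
    rw [coord_lTensor, coord_lTensor] at this
    exact this
  choose c hc using hco
  let r : A := ∑ i ∈ (TensorProduct.equivFinsuppOfBasisLeft e a).support, c i • e i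
  have ha : a = algebraMap A (M.Ap A) r := by
    conv_lhs => rw [← (TensorProduct.equivFinsuppOfBasisLeft e).symm_apply_apply a,
      TensorProduct.equivFinsuppOfBasisLeft_symm_apply]
    rw [Finsupp.sum, map_sum]
    refine Finset.sum_congr rfl fun i _ => ?_
    rw [hc i, Algebra.algebraMap_eq_smul_one, TensorProduct.tmul_smul,
      Algebra.TensorProduct.algebraMap_apply, Algebra.algebraMap_self, RingHom.id_apply,
      TensorProduct.smul_tmul']
  refine ⟨r, ha, ?_⟩
  have hinj : Function.Injective (M.imA A) :=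
    (LineData.unit M A).ρm_inj
  apply hinj
  rw [← h, ha, AlgHom.commutes, AlgHom.commutes]

theorem exists_fg_pr (L : LineData M A) :
    ∃ W : Submodule A L.Mp, W.FG ∧ ∀ (a : L.Mp) (b : L.Mm), L.ρp a = L.ρm b → a ∈ W := by
  classical
  obtain ⟨r, π, ι, -, -, hid⟩ :=
    Module.Finite.exists_comp_eq_id_of_projective (M.Ap A) L.Mp
  let h : Fin r → L.Mp →ₗ[M.Ap A] M.Ap A := fun j => (LinearMap.proj j).comp ι
  let q : Fin r → L.Mp := fun j => π (Pi.single j 1)
  have hdual : ∀ m, m = ∑ j, h j m • q j := by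
    intro m
    conv_lhs => rw [← LinearMap.id_apply (R := M.Ap A) m, ← hid, LinearMap.comp_apply,
      pi_eq_sum_univ' (ι m)]
    simp [q, h]
  obtain ⟨s, w, hw⟩ := Module.Finite.exists_fin (R := M.Am A) (M := L.Mm)
  obtain ⟨T, hT⟩ := exists_uniform_p L fun l => L.ρm (w l)
  choose p hp using hT T le_rfl
  obtain ⟨D, hD⟩ := exists_uniform_m (LineData.unit M A)
    fun v : Fin r × Fin s => M.ipA A (h v.1 (p v.2))
  choose d hd using hD D le_rfl
  obtain ⟨G, hG, hGmem⟩ := exists_fg_sections M A D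
  refine ⟨⨆ j, G.map ((LinearMap.toSpanSingleton (M.Ap A) L.Mp (q j)).restrictScalars A),
    Submodule.fg_iSup _ fun j => hG.map _, fun a b hab => ?_⟩
  obtain ⟨c, hc⟩ := (Submodule.mem_span_range_iff_exists_fun (M.Am A)).mp
    (show b ∈ Submodule.span (M.Am A) (Set.range w) from hw ▸ Submodule.mem_top)
  obtain ⟨e, he⟩ := exists_uniform_p (LineData.unit M A) fun l => M.imA A (c l)
  choose c' hc' using he e le_rfl
  have hc'' : ∀ l, (M.xU A : M.Apm A) ^ e * M.imA A (c l) = M.ipA A (c' l) := hc'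
  have hd' : ∀ v, (↑(M.xU A)⁻¹ : M.Apm A) ^ D * M.ipA A (h v.1 (p v.2)) = M.imA A (d v) := hd
  have key : xh M A ^ (e + T) • a = ∑ l, c' l • p l := by
    apply L.ρp_inj
    rw [rhop_xh, map_sum, hab, ← hc, map_sum, Finset.smul_sum]
    refine Finset.sum_congr rfl fun l _ => ?_
    rw [rhom_ring, rhop_ring, ← hc'' l, mul_smul, ← hp l, smul_smul, smul_smul, smul_smul, pow_add]
    congr 1
    ring
  rw [hdual a]
  refine Submodule.sum_mem _ fun j _ => Submodule.mem_iSup_of_mem j ⟨h j a, ?_, rfl⟩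
  refine hGmem _ (yh M A ^ T * ∑ l, c l * d (j, l)) ?_
  have h1 := congrArg (fun z => M.ipA A (h j z)) key
  simp only [map_smul, map_sum, smul_eq_mul, map_mul, map_pow, ipA_xh, ← hc''] at h1
  have h2 : ∀ l, M.ipA A (h j (p l)) = (M.xU A : M.Apm A) ^ D * M.imA A (d (j, l)) := by
    intro l
    rw [← hd' (j, l), ← mul_assoc, ← mul_pow, Units.mul_inv, one_pow, one_mul]
  simp only [h2] at h1
  rw [map_mul, map_pow, imA_yh, map_sum]
  refine ((M.xU A).isUnit.pow (e + T)).mul_left_cancel ?_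
  rw [h1, pow_add]
  have hu : (M.xU A : M.Apm A) ^ T * (↑(M.xU A)⁻¹ : M.Apm A) ^ T = 1 := by
    rw [← mul_pow, Units.mul_inv, one_pow]
  simp only [map_mul, Finset.mul_sum]
  refine Finset.sum_congr rfl fun l _ => ?_
  linear_combination -((M.xU A : M.Apm A) ^ e * (M.xU A : M.Apm A) ^ D * M.imA A (c l) *
    M.imA A (d (j, l))) * hu

end FLTAgent.Jac.Coh
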