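import Fermat.Agent.Jac.Coh.Basic
import Fermat.Agent.Jac.Coh.Finite

/-! # S25: cohomology of line bundle data under base change -/

set_option autoImplicit false

universe u

open TensorProduct

namespace FLTAgent.Jac.Coh

open LineData

variable {k : Type u} [Field k] {M : Model k} {A : Type u} [CommRing A] [Algebra k A]
  {B : Type u} [CommRing B] [Algebra k B] {f : A →ₐ[k] B} {L : LineData M A} {L' : LineData M B}

theorem projective_base {R : Type u} [CommRing R] [Algebra k R] (Q : Type u) [AddCommGroup Q]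
    [Module (A ⊗[k] R) Q] [Module A Q] [IsScalarTower A (A ⊗[k] R) Q]
    [Module.Invertible (A ⊗[k] R) Q] : Module.Projective A Q := by
  obtain ⟨n, π, ι, -, -, hid⟩ :=
    Module.Finite.exists_comp_eq_id_of_projective (A ⊗[k] R) Q
  exact Module.Projective.of_split (ι.restrictScalars A) (π.restrictScalars A)
    (LinearMap.ext fun x => LinearMap.congr_fun hid x)

theorem mapPM_xU (f : A →ₐ[k] B) : M.mapPM f (M.xU A : M.Apm A) = (M.xU B : M.Apm B) := by
  simp [Model.mapPM, xU_val]

theorem span_fn (φ : BCHom f L L')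
    (hp : Submodule.span (M.Ap B) (Set.range φ.fp) = ⊤) :
    Submodule.span (M.Apm B) (Set.range φ.fn) = ⊤ := by
  rw [eq_top_iff]
  intro v _
  obtain ⟨i, m, hm⟩ := L'.ρp_surj v
  have hv : v = (↑(M.xU B)⁻¹ : M.Apm B) ^ i • L'.ρp m := by
    rw [← hm, smul_smul, ← mul_pow, Units.inv_mul, one_pow, one_smul]
  rw [hv]
  refine Submodule.smul_mem _ _ ?_
  have h : m ∈ Submodule.span (M.Ap B) (Set.range φ.fp) := hp ▸ Submodule.mem_top
  clear hm hv
  induction h using Submodule.span_induction with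
  | mem z hz =>
    obtain ⟨w, rfl⟩ := hz
    exact Submodule.subset_span ⟨L.ρp w, φ.comm_p w⟩
  | zero => rw [map_zero]; exact zero_mem _
  | add z z' _ _ h h' => rw [map_add]; exact add_mem h h'
  | smul c z _ h => rw [rhop_ring]; exact Submodule.smul_mem _ _ h

theorem fp_smul (φ : BCHom f L L') (a : A) (m : L.Mp) : φ.fp (a • m) = f a • φ.fp m :=
  map_smul_base (R := M.Rp) φ.fp a m

theorem fm_smul (φ : BCHom f L L') (a : A) (m : L.Mm) : φ.fm (a • m) = f a • φ.fm m :=
  map_smul_base (R := M.Rm) φ.fm a m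

theorem fn_smul (φ : BCHom f L L') (a : A) (m : L.N) : φ.fn (a • m) = f a • φ.fn m :=
  map_smul_base (R := M.Rpm) φ.fn a m

/-- The map on pairs of chart sections. -/
noncomputable def pairMap (φ : BCHom f L L') :
    L.Mp × L.Mm →ₛₗ[f.toRingHom] L'.Mp × L'.Mm where
  toFun v := (φ.fp v.1, φ.fm v.2)
  map_add' v w := by simp only [Prod.fst_add, Prod.snd_add, map_add, Prod.mk_add_mk]
  map_smul' a v := by
    simp only [Prod.smul_fst, Prod.smul_snd, fp_smul, fm_smul, Prod.smul_mk]
    rfl

theorem diff_pairMap (φ : BCHom f L L') (v : L.Mp × L.Mm) :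
    L'.diff (pairMap φ v) = φ.fn (L.diff v) := by
  rw [diff_apply, diff_apply, map_sub, φ.comm_p, φ.comm_m]
  rfl

theorem span_pairMap (φ : BCHom f L L')
    (hp : Submodule.span (M.Ap B) (Set.range φ.fp) = ⊤)
    (hm : Submodule.span (M.Am B) (Set.range φ.fm) = ⊤) :
    Submodule.span B (Set.range (pairMap φ)) = ⊤ := by
  rw [eq_top_iff]
  rintro ⟨a, b⟩ _
  have ha : a ∈ Submodule.span B (Set.range φ.fp) :=
    span_base_eq_top (R := M.Rp) φ.fp hp ▸ Submodule.mem_top
  have hb : b ∈ Submodule.span B (Set.range φ.fm) :=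
    span_base_eq_top (R := M.Rm) φ.fm hm ▸ Submodule.mem_top
  have e1 : (a, (0 : L'.Mm)) ∈ Submodule.span B (Set.range (pairMap φ)) := by
    have := Submodule.apply_mem_span_image_of_mem_span (LinearMap.inl B L'.Mp L'.Mm) ha
    refine Submodule.span_mono ?_ this
    rintro _ ⟨_, ⟨m, rfl⟩, rfl⟩
    exact ⟨(m, 0), Prod.ext rfl (map_zero φ.fm)⟩
  have e2 : ((0 : L'.Mp), b) ∈ Submodule.span B (Set.range (pairMap φ)) := by
    have := Submodule.apply_mem_span_image_of_mem_span (LinearMap.inr B L'.Mp L'.Mm) hb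
    refine Submodule.span_mono ?_ this
    rintro _ ⟨_, ⟨m, rfl⟩, rfl⟩
    exact ⟨(0, m), Prod.ext (map_zero φ.fp) rfl⟩
  simpa using add_mem e1 e2

theorem diff_surjective_bc (h : L.Acyclic) (φ : BCHom f L L')
    (hp : Submodule.span (M.Ap B) (Set.range φ.fp) = ⊤) : L'.Acyclic := by
  intro v
  suffices v ∈ LinearMap.range L'.diff from this
  have hv : v ∈ Submodule.span B (Set.range φ.fn) :=
    span_base_eq_top (R := M.Rpm) φ.fn (span_fn φ hp) ▸ Submodule.mem_top
  refine Submodule.span_le.mpr ?_ hv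
  rintro _ ⟨n, rfl⟩
  obtain ⟨w, rfl⟩ := h n
  exact ⟨pairMap φ w, diff_pairMap φ w⟩

theorem exists_section (h : L.Acyclic) : ∃ s : L.N →ₗ[A] L.Mp × L.Mm, ∀ n, L.diff (s n) = n := by
  have : Module.Projective A L.N := projective_base (k := k) (R := M.Rpm) L.N
  obtain ⟨s, hs⟩ := Module.projective_lifting_property L.diff LinearMap.id h
  exact ⟨s, fun n => LinearMap.congr_fun hs n⟩

/-- The projection to `H⁰` attached to a section of `diff`. -/
theorem exists_retraction (h : L.Acyclic) :
    ∃ (s : L.N →ₗ[A] L.Mp × L.Mm) (π : L.Mp × L.Mm →ₗ[A] L.H0),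
      (∀ n, L.diff (s n) = n) ∧ (∀ v, (π v : L.Mp × L.Mm) = v - s (L.diff v)) ∧
        ∀ v : L.H0, π v = v := by
  obtain ⟨s, hs⟩ := exists_section h
  refine ⟨s, LinearMap.codRestrict L.H0 (LinearMap.id - s.comp L.diff) fun v => ?_, hs,
    fun v => rfl, fun v => Subtype.ext ?_⟩
  · simp [hs]
  · simp [LinearMap.mem_ker.mp v.2]

theorem finite_ker_of_surjective (h : L.Acyclic) : Module.Finite A L.H0 := by
  obtain ⟨W, hW, hWmem⟩ := exists_fg_pr L
  obtain ⟨W', hW', hW'mem⟩ := exists_fg_pr L.swap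
  obtain ⟨s, π, -, -, hπ⟩ := exists_retraction h
  have hfin : Module.Finite A (W.prod W') :=
    Module.Finite.iff_fg.mpr (hW.prod hW')
  refine Module.Finite.of_surjective (π.comp (W.prod W').subtype) fun v => ?_
  have hv : L.ρp (v : L.Mp × L.Mm).1 = L.ρm (v : L.Mp × L.Mm).2 :=
    sub_eq_zero.mp (LinearMap.mem_ker.mp v.2)
  exact ⟨⟨v, hWmem _ _ hv, hW'mem (v : L.Mp × L.Mm).2 _ hv.symm⟩, hπ v⟩

theorem projective_ker_of_surjective (h : L.Acyclic) : Module.Projective A L.H0 := by
  obtain ⟨s, π, -, -, hπ⟩ := exists_retraction h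
  have := projective_base (k := k) (A := A) (R := M.Rp) L.Mp
  have := projective_base (k := k) (A := A) (R := M.Rm) L.Mm
  exact Module.Projective.of_split L.H0.subtype π (LinearMap.ext hπ)

theorem span_ker_of_surjective (h : L.Acyclic) (φ : BCHom f L L')
    (hp : Submodule.span (M.Ap B) (Set.range φ.fp) = ⊤)
    (hm : Submodule.span (M.Am B) (Set.range φ.fm) = ⊤) :
    Submodule.span B ((fun v : L.Mp × L.Mm => (φ.fp v.1, φ.fm v.2)) '' (L.H0 : Set _)) =
      L'.H0 := by
  obtain ⟨s, π, -, hπ, -⟩ := exists_retraction h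
  obtain ⟨s', hs''⟩ := exists_extend (R := M.Rpm) φ.fn (span_fn φ hp) s (pairMap φ)
  have hs' : ∀ n, s' (φ.fn n) = pairMap φ (s n) := hs''
  refine le_antisymm (Submodule.span_le.mpr ?_) fun v hv => ?_
  · rintro _ ⟨w, hw, rfl⟩
    show L'.diff (pairMap φ w) = 0
    rw [diff_pairMap, LinearMap.mem_ker.mp hw, map_zero]
  · let P : L'.Mp × L'.Mm →ₗ[B] L'.Mp × L'.Mm := LinearMap.id - s'.comp L'.diff
    have hv' : P v = v := by simp [P, LinearMap.mem_ker.mp hv]
    rw [← hv']
    have hspan : v ∈ Submodule.span B (Set.range (pairMap φ)) :=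
      span_pairMap φ hp hm ▸ Submodule.mem_top
    refine Submodule.span_mono ?_ (Submodule.apply_mem_span_image_of_mem_span P hspan)
    rintro _ ⟨_, ⟨w, rfl⟩, rfl⟩
    refine ⟨(π w : L.Mp × L.Mm), (π w).2, ?_⟩
    show pairMap φ (π w : L.Mp × L.Mm) = pairMap φ w - s' (L'.diff (pairMap φ w))
    rw [diff_pairMap, hs', hπ, map_sub]

/-- `H⁰` of the base change is the base change of `H⁰`. -/
theorem exists_equiv_ker (h : L.Acyclic) (φ : BCHom f L L')
    (hp : Submodule.span (M.Ap B) (Set.range φ.fp) = ⊤)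
    (hm : Submodule.span (M.Am B) (Set.range φ.fm) = ⊤) :
    letI : Algebra A B := f.toRingHom.toAlgebra
    Nonempty (B ⊗[A] L.H0 ≃ₗ[B] L'.H0) := by
  letI : Algebra A B := f.toRingHom.toAlgebra
  letI : Module A L'.H0 := Module.compHom _ f.toRingHom
  haveI : IsScalarTower A B L'.H0 := IsScalarTower.of_algebraMap_smul fun _ _ => rfl
  obtain ⟨s, π, -, -, hπ⟩ := exists_retraction h
  let ι : L.H0 →ₗ[A] L'.H0 :=
    { toFun := fun v => ⟨pairMap φ v, by
        show L'.diff (pairMap φ v) = 0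
        rw [diff_pairMap, LinearMap.mem_ker.mp v.2, map_zero]⟩
      map_add' := fun v w => Subtype.ext (map_add (pairMap φ) v.1 w.1)
      map_smul' := fun a v => Subtype.ext ((pairMap φ).map_smulₛₗ a v.1) }
  let ψ : L.H0 →ₛₗ[f.toRingHom] B ⊗[A] L.H0 :=
    { toFun := fun v => (1 : B) ⊗ₜ v
      map_add' := fun v w => TensorProduct.tmul_add _ _ _
      map_smul' := fun a v => by
        rw [TensorProduct.tmul_smul, ← algebraMap_smul B a ((1 : B) ⊗ₜ[A] v)]
        rfl }
  obtain ⟨tp, htp'⟩ := exists_extend (R := M.Rp) φ.fp hp (π.comp (LinearMap.inl A L.Mp L.Mm)) ψ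
  obtain ⟨tm, htm'⟩ := exists_extend (R := M.Rm) φ.fm hm (π.comp (LinearMap.inr A L.Mp L.Mm)) ψ
  have htp : ∀ m, tp (φ.fp m) = ψ (π.comp (LinearMap.inl A L.Mp L.Mm) m) := htp'
  have htm : ∀ m, tm (φ.fm m) = ψ (π.comp (LinearMap.inr A L.Mp L.Mm) m) := htm'
  let l := ι.liftBaseChange B
  let r : L'.H0 →ₗ[B] B ⊗[A] L.H0 := (tp.coprod tm).comp L'.H0.subtype
  have hrl : ∀ z, r (l z) = z := by
    intro z
    induction z using TensorProduct.induction_on with
    | zero => simp
    | add z z' h h' => simp [h, h']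
    | tmul b v =>
      rw [LinearMap.liftBaseChange_tmul, map_smul]
      have : r (ι v) = ψ v := by
        show tp (φ.fp (v : L.Mp × L.Mm).1) + tm (φ.fm (v : L.Mp × L.Mm).2) = _
        rw [htp, htm, ← map_add, LinearMap.comp_apply, LinearMap.comp_apply, ← map_add]
        simp [hπ]
      rw [this]
      show b • ((1 : B) ⊗ₜ[A] v) = _
      rw [TensorProduct.smul_tmul', smul_eq_mul, mul_one]
  refine ⟨LinearEquiv.ofBijective l ⟨fun z w hzw => by rw [← hrl z, ← hrl w, hzw], fun v => ?_⟩⟩
  suffices v ∈ LinearMap.range l from this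
  have hv : (v : L'.Mp × L'.Mm) ∈ Submodule.span B
      ((fun w : L.Mp × L.Mm => (φ.fp w.1, φ.fm w.2)) '' (L.H0 : Set _)) :=
    (span_ker_of_surjective h φ hp hm).symm ▸ v.2
  have hle : Submodule.span B ((fun w : L.Mp × L.Mm => (φ.fp w.1, φ.fm w.2)) '' (L.H0 : Set _)) ≤
      (LinearMap.range l).map L'.H0.subtype := by
    refine Submodule.span_le.mpr ?_
    rintro _ ⟨w, hw, rfl⟩
    exact ⟨ι ⟨w, hw⟩, ⟨(1 : B) ⊗ₜ ⟨w, hw⟩, by simp [l]⟩, rfl⟩
  obtain ⟨v', hv', hvv⟩ := hle hv
  exact (Subtype.ext hvv : v' = v) ▸ hv'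

theorem acyclic_iff_subsingleton (φ : BCHom f L L')
    (hp : Submodule.span (M.Ap B) (Set.range φ.fp) = ⊤)
    (hm : Submodule.span (M.Am B) (Set.range φ.fm) = ⊤) :
    letI : Algebra A B := f.toRingHom.toAlgebra
    L'.Acyclic ↔ Subsingleton (B ⊗[A] L.H1) := by
  letI : Algebra A B := f.toRingHom.toAlgebra
  let ψ : L.H1 →ₛₗ[f.toRingHom] B ⊗[A] L.H1 :=
    { toFun := fun v => (1 : B) ⊗ₜ v
      map_add' := fun v w => TensorProduct.tmul_add _ _ _
      map_smul' := fun a v => by
        rw [TensorProduct.tmul_smul, ← algebraMap_smul B a ((1 : B) ⊗ₜ[A] v)]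
        rfl }
  obtain ⟨t, ht'⟩ := exists_extend (R := M.Rpm) φ.fn (span_fn φ hp)
    (LinearMap.range L.diff).mkQ ψ
  have ht : ∀ n, t (φ.fn n) = ψ ((LinearMap.range L.diff).mkQ n) := ht'
  constructor
  · intro h
    refine subsingleton_of_forall_eq 0 fun z => ?_
    induction z using TensorProduct.induction_on with
    | zero => rfl
    | add z z' h h' => rw [h, h', add_zero]
    | tmul b c =>
      obtain ⟨n, rfl⟩ := Submodule.Quotient.mk_surjective _ c
      rw [show b ⊗ₜ[A] (Submodule.Quotient.mk n : L.H1) =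
        b • ψ ((LinearMap.range L.diff).mkQ n) from by
          show _ = b • ((1 : B) ⊗ₜ[A] (Submodule.Quotient.mk n : L.H1))
          rw [TensorProduct.smul_tmul', smul_eq_mul, mul_one], ← ht]
      obtain ⟨v', hv'⟩ := h (φ.fn n)
      rw [← hv']
      suffices t (L'.diff v') = 0 by rw [this, smul_zero]
      have hv : v' ∈ Submodule.span B (Set.range (pairMap φ)) :=
        span_pairMap φ hp hm ▸ Submodule.mem_top
      clear hv'
      induction hv using Submodule.span_induction with
      | mem z hz =>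
        obtain ⟨w, rfl⟩ := hz
        rw [diff_pairMap, ht]
        have : (LinearMap.range L.diff).mkQ (L.diff w) = 0 := by simp
        rw [this, map_zero]
      | zero => simp
      | add z z' _ _ h h' => rw [map_add, map_add, h, h', add_zero]
      | smul c z _ h => rw [map_smul, map_smul, h, smul_zero]
  · intro h
    letI : Module A L'.H1 := Module.compHom _ f.toRingHom
    haveI : IsScalarTower A B L'.H1 := IsScalarTower.of_algebraMap_smul fun _ _ => rfl
    let g : L.N →ₗ[A] L'.H1 :=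
      { toFun := fun n => Submodule.Quotient.mk (φ.fn n)
        map_add' := fun n n' => by rw [map_add, Submodule.Quotient.mk_add]
        map_smul' := fun a n => by rw [fn_smul, Submodule.Quotient.mk_smul]; rfl }
    have hg : LinearMap.range L.diff ≤ LinearMap.ker g := by
      rintro _ ⟨v, rfl⟩
      exact (Submodule.Quotient.mk_eq_zero _).mpr ⟨pairMap φ v, diff_pairMap φ v⟩
    intro v
    suffices v ∈ LinearMap.range L'.diff from this
    have hv : v ∈ Submodule.span B (Set.range φ.fn) :=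
      span_base_eq_top (R := M.Rpm) φ.fn (span_fn φ hp) ▸ Submodule.mem_top
    refine Submodule.span_le.mpr ?_ hv
    rintro _ ⟨n, rfl⟩
    refine (Submodule.Quotient.mk_eq_zero _).mp ?_
    have : (((LinearMap.range L.diff).liftQ g hg).liftBaseChange B)
        ((1 : B) ⊗ₜ Submodule.Quotient.mk n) = Submodule.Quotient.mk (φ.fn n) := by
      simp [g]
    rw [← this, Subsingleton.elim ((1 : B) ⊗ₜ[A] (Submodule.Quotient.mk n : L.H1)) 0, map_zero]

/-- The support of a finite module detects the vanishing of its base change to a field. -/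
theorem nontrivial_tensor_field_iff {R : Type u} [CommRing R] {N : Type u} [AddCommGroup N]
    [Module R N] [Module.Finite R N] {K : Type u} [Field K] [Algebra R K] (p : PrimeSpectrum R)
    (hp : p.asIdeal = RingHom.ker (algebraMap R K)) :
    Nontrivial (K ⊗[R] N) ↔ p ∈ Module.support R N := by
  rw [Module.mem_support_iff_nontrivial_residueField_tensorProduct]
  let g : p.asIdeal.ResidueField →+* K := Ideal.ResidueField.lift p.asIdeal (algebraMap R K)
    (le_of_eq hp) fun a (ha : a ∉ p.asIdeal) => by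
      show IsUnit (algebraMap R K a)
      rw [hp] at ha
      exact isUnit_iff_ne_zero.mpr ha
  letI : Algebra p.asIdeal.ResidueField K := g.toAlgebra
  haveI : IsScalarTower R p.asIdeal.ResidueField K :=
    IsScalarTower.of_algebraMap_eq fun r =>
      (Ideal.ResidueField.lift_algebraMap p.asIdeal _ _ _ r).symm
  rw [← (AlgebraTensorModule.cancelBaseChange R p.asIdeal.ResidueField K K N).nontrivial_congr]
  exact Module.FaithfullyFlat.nontrivial_tensorProduct_iff_right _ K

theorem subsingleton_tensor_iff {R : Type u} [CommRing R] {S : Type u} [CommRing S] [Algebra R S]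
    {N : Type u} [AddCommGroup N] [Module R N] [Module.Finite R N] :
    Subsingleton (S ⊗[R] N) ↔
      Set.range (PrimeSpectrum.comap (algebraMap R S)) ⊆ (Module.support R N)ᶜ := by
  rw [← Module.support_eq_empty_iff (R := S), Set.eq_empty_iff_forall_notMem]
  have key : ∀ q : PrimeSpectrum S, q ∈ Module.support S (S ⊗[R] N) ↔
      PrimeSpectrum.comap (algebraMap R S) q ∈ Module.support R N := by
    intro q
    rw [Module.mem_support_iff_nontrivial_residueField_tensorProduct,
      (AlgebraTensorModule.cancelBaseChange R S q.asIdeal.ResidueField q.asIdeal.ResidueField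
        N).nontrivial_congr]
    refine nontrivial_tensor_field_iff _ ?_
    rw [PrimeSpectrum.comap_asIdeal, IsScalarTower.algebraMap_eq R S q.asIdeal.ResidueField,
      ← RingHom.comap_ker, Ideal.ker_algebraMap_residueField]
  constructor
  · rintro h _ ⟨q, rfl⟩
    exact fun hq => h q ((key q).mpr hq)
  · exact fun h q hq => h ⟨q, rfl⟩ ((key q).mp hq)

end FLTAgent.Jac.Coh
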