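import Fermat.Agent.Jac.Defs

/-! # S25: extension of linear maps along a base change of invertible modules -/

set_option autoImplicit false

universe u

open TensorProduct

namespace FLTAgent.Jac.Coh

variable {k : Type u} [Field k] {A : Type u} [CommRing A] [Algebra k A]
  {B : Type u} [CommRing B] [Algebra k B] {R : Type u} [CommRing R] [Algebra k R]

/-- The map `A ⊗ R → B ⊗ R` induced by `f`. -/
noncomputable abbrev mapT (f : A →ₐ[k] B) : A ⊗[k] R →ₐ[k] B ⊗[k] R :=
  Algebra.TensorProduct.map f (AlgHom.id k R)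

theorem mapT_algebraMap (f : A →ₐ[k] B) (a : A) :
    mapT (R := R) f (algebraMap A (A ⊗[k] R) a) = algebraMap B (B ⊗[k] R) (f a) := by
  simp [Algebra.TensorProduct.algebraMap_apply]

theorem smul_comm_dual {P : Type u} [CommRing P] {N : Type u} [AddCommGroup N] [Module P N]
    [Module.Invertible P N] (g : N →ₗ[P] P) (m n : N) : g m • n = g n • m := by
  have h := congrArg
    (TensorProduct.lift ((LinearMap.lsmul P N).comp g))
    (Module.Invertible.tmul_comm (R := P) (m₁ := m) (m₂ := n))
  simpa using h

variable {Q Q' : Type u} [AddCommGroup Q] [Module (A ⊗[k] R) Q] [Module A Q]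
  [IsScalarTower A (A ⊗[k] R) Q] [AddCommGroup Q'] [Module (B ⊗[k] R) Q'] [Module B Q']
  [IsScalarTower B (B ⊗[k] R) Q'] {f : A →ₐ[k] B}

theorem map_smul_base (g : Q →ₛₗ[(mapT (R := R) f).toRingHom] Q') (a : A) (m : Q) :
    g (a • m) = f a • g m := by
  rw [← IsScalarTower.algebraMap_smul (A ⊗[k] R) a m, map_smulₛₗ,
    ← IsScalarTower.algebraMap_smul (B ⊗[k] R) (f a) (g m)]
  congr 1

theorem span_base_eq_top (g : Q →ₛₗ[(mapT (R := R) f).toRingHom] Q')
    (hg : Submodule.span (B ⊗[k] R) (Set.range g) = ⊤) :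
    Submodule.span B (Set.range g) = ⊤ := by
  have key : ∀ (c : B ⊗[k] R) (v : Q'), v ∈ Submodule.span B (Set.range g) →
      c • v ∈ Submodule.span B (Set.range g) := by
    intro c v hv
    induction c using TensorProduct.induction_on with
    | zero => simp
    | tmul b r =>
      rw [show b ⊗ₜ[k] r = b • ((1 : B) ⊗ₜ[k] r) from by simp [TensorProduct.smul_tmul'],
        smul_assoc]
      refine Submodule.smul_mem _ _ ?_
      induction hv using Submodule.span_induction with
      | mem w hw =>
        obtain ⟨m, rfl⟩ := hw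
        refine Submodule.subset_span ⟨((1 : A) ⊗ₜ[k] r) • m, ?_⟩
        rw [map_smulₛₗ]
        simp
      | zero => simp
      | add w w' _ _ h h' => rw [smul_add]; exact add_mem h h'
      | smul b' w _ h => rw [smul_comm]; exact Submodule.smul_mem _ _ h
    | add c c' h h' => rw [add_smul]; exact add_mem h h'
  rw [eq_top_iff]
  intro v _
  have hv : v ∈ Submodule.span (B ⊗[k] R) (Set.range g) := hg ▸ Submodule.mem_top
  induction hv using Submodule.span_induction with
  | mem w hw => exact Submodule.subset_span hw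
  | zero => simp
  | add w w' _ _ h h' => exact add_mem (h trivial) (h' trivial)
  | smul c w _ h => exact key c w (h trivial)

/-- Relations between the images of `Q` in `Q'` are preserved by every functional. -/
theorem sum_dual_eq_zero [Module.Invertible (A ⊗[k] R) Q] [Module.Invertible (B ⊗[k] R) Q']
    (g : Q →ₛₗ[(mapT (R := R) f).toRingHom] Q')
    (hg : Submodule.span (B ⊗[k] R) (Set.range g) = ⊤)
    (h : Q →ₗ[A ⊗[k] R] A ⊗[k] R) (z : Q →₀ B)
    (hz : (z.sum fun m b => b • g m) = 0) :
    (z.sum fun m b => b • mapT (R := R) f (h m)) = 0 := by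
  set c := z.sum fun m b => b • mapT (R := R) f (h m)
  have hc : ∀ n : Q, c • g n = 0 := by
    intro n
    have : c • g n = mapT (R := R) f (h n) • (z.sum fun m b => b • g m) := by
      rw [Finsupp.smul_sum]
      simp only [c, Finsupp.sum, Finset.sum_smul]
      refine Finset.sum_congr rfl fun m _ => ?_
      rw [smul_assoc, smul_comm (mapT (R := R) f (h n)) (z m) (g m)]
      congr 1
      calc mapT (R := R) f (h m) • g n = g (h m • n) := (map_smulₛₗ g _ _).symm
        _ = g (h n • m) := by rw [smul_comm_dual]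
        _ = _ := map_smulₛₗ g _ _
    rw [this, hz, smul_zero]
  have hall : ∀ v : Q', c • v = 0 := by
    intro v
    have hv : v ∈ Submodule.span (B ⊗[k] R) (Set.range g) := hg ▸ Submodule.mem_top
    induction hv using Submodule.span_induction with
    | mem w hw => obtain ⟨m, rfl⟩ := hw; exact hc m
    | zero => simp
    | add w w' _ _ h h' => rw [smul_add, h, h', add_zero]
    | smul r w _ h => rw [smul_comm, h, smul_zero]
  exact eq_of_smul_eq_smul (M := B ⊗[k] R) (α := Q') fun v => by rw [hall v, zero_smul]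

/-- Every linear map on `Q` extends to the base change. -/
theorem exists_extend [Module.Invertible (A ⊗[k] R) Q] [Module.Invertible (B ⊗[k] R) Q']
    (g : Q →ₛₗ[(mapT (R := R) f).toRingHom] Q')
    (hg : Submodule.span (B ⊗[k] R) (Set.range g) = ⊤)
    {W W' : Type u} [AddCommGroup W] [Module A W] [AddCommGroup W'] [Module B W']
    (t : Q →ₗ[A] W) (ψ : W →ₛₗ[f.toRingHom] W') :
    ∃ t' : Q' →ₗ[B] W', ∀ m, t' (g m) = ψ (t m) := by
  classical
  obtain ⟨n, π, ι, -, -, hid⟩ :=
    Module.Finite.exists_comp_eq_id_of_projective (A ⊗[k] R) Q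
  let q : Fin n → Q := fun j => π (Pi.single j 1)
  let h : Fin n → Q →ₗ[A ⊗[k] R] A ⊗[k] R := fun j => (LinearMap.proj j).comp ι
  have hdual : ∀ m, m = ∑ j, h j m • q j := by
    intro m
    conv_lhs => rw [← LinearMap.id_apply (R := A ⊗[k] R) m, ← hid, LinearMap.comp_apply,
      pi_eq_sum_univ' (ι m)]
    simp [q, h]
  let bR := Module.Free.chooseBasis k R
  let bA := Algebra.TensorProduct.basis A bR
  let bB := Algebra.TensorProduct.basis B bR
  let e : Fin n → (A ⊗[k] R) →ₗ[A] W := fun j =>
    t.comp ((LinearMap.toSpanSingleton (A ⊗[k] R) Q (q j)).restrictScalars A)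
  let e' : Fin n → (B ⊗[k] R) →ₗ[B] W' := fun j => bB.constr B fun i => ψ (e j (bA i))
  have he' : ∀ j x, e' j (mapT (R := R) f x) = ψ (e j x) := by
    intro j x
    have hx : x ∈ Submodule.span A (Set.range bA) := bA.mem_span x
    induction hx using Submodule.span_induction with
    | mem w hw =>
      obtain ⟨i, rfl⟩ := hw
      have : mapT (R := R) f (bA i) = bB i := by simp [bA, bB]
      rw [this, Module.Basis.constr_basis]
    | zero => rw [map_zero, map_zero, map_zero]; exact (map_zero ψ).symm
    | add w w' _ _ h₁ h₂ => rw [map_add, map_add, map_add, map_add, h₁, h₂]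
    | smul a w _ h₁ =>
      have hm : mapT (R := R) f (a • w) = f a • mapT (R := R) f w := by
        rw [Algebra.smul_def, map_mul, mapT_algebraMap, ← Algebra.smul_def]
      rw [hm, (e j).map_smul, (e' j).map_smul, ψ.map_smulₛₗ, h₁]
      rfl
  let Φ : (Q →₀ B) →ₗ[B] Q' := Finsupp.linearCombination B g
  let Ψ : (Q →₀ B) →ₗ[B] W' := Finsupp.linearCombination B fun m => ψ (t m)
  have hΦ : Function.Surjective Φ := by
    rw [← LinearMap.range_eq_top, Finsupp.range_linearCombination]
    exact span_base_eq_top g hg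
  have hker : LinearMap.ker Φ ≤ LinearMap.ker Ψ := by
    intro z hz
    rw [LinearMap.mem_ker, Finsupp.linearCombination_apply] at hz ⊢
    have ht : ∀ m, ψ (t m) = ∑ j, e' j (mapT (R := R) f (h j m)) := by
      intro m
      simp only [he', ← map_sum, e]
      congr 1
      conv_lhs => rw [hdual m, map_sum]
      simp
    simp only [ht, Finset.smul_sum, ← map_smul, Finsupp.sum]
    rw [Finset.sum_comm]
    refine Finset.sum_eq_zero fun j _ => ?_
    rw [← map_sum]
    have := sum_dual_eq_zero g hg (h j) z hz
    rw [Finsupp.sum] at this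
    rw [this, map_zero]
  refine ⟨((LinearMap.ker Φ).liftQ Ψ hker).comp
    (Φ.quotKerEquivOfSurjective hΦ).symm.toLinearMap, fun m => ?_⟩
  have : (Φ.quotKerEquivOfSurjective hΦ).symm (g m) =
      Submodule.Quotient.mk (Finsupp.single m 1) := by
    rw [LinearEquiv.symm_apply_eq]
    simp [Φ]
  rw [LinearMap.comp_apply, LinearEquiv.coe_toLinearMap, this]
  simp [Ψ]

end FLTAgent.Jac.Coh
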