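import Fermat.Agent.Jac.Coh.BaseChange

/-! # S25: the Euler characteristic of a twist -/

set_option autoImplicit false

universe u

open TensorProduct Polynomial

namespace FLTAgent.Jac.Coh

open LineData

variable {k : Type u} [Field k] {M : Model k} {K : Type u} [Field K] [Algebra k K]

/-- Index is additive for an injective map with finite cokernel. -/
theorem index_comp {V N : Type u} [AddCommGroup V] [Module K V] [AddCommGroup N] [Module K N]
    (g : V →ₗ[K] N) (ι : V →ₗ[K] V) (hι : Function.Injective ι)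
    [Module.Finite K (LinearMap.ker g)] [Module.Finite K (LinearMap.ker (g.comp ι))]
    [Module.Finite K (N ⧸ LinearMap.range g)] [Module.Finite K (N ⧸ LinearMap.range (g.comp ι))]
    [Module.Finite K (V ⧸ LinearMap.range ι)] :
    ((Module.finrank K (LinearMap.ker (g.comp ι)) : ℤ) -
        Module.finrank K (N ⧸ LinearMap.range (g.comp ι))) =
      (Module.finrank K (LinearMap.ker g) : ℤ) - Module.finrank K (N ⧸ LinearMap.range g) -
        Module.finrank K (V ⧸ LinearMap.range ι) := by
  let κ : LinearMap.ker g →ₗ[K] V ⧸ LinearMap.range ι :=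
    (LinearMap.range ι).mkQ.comp (LinearMap.ker g).subtype
  have hκ : LinearMap.ker κ ≃ₗ[K] LinearMap.ker (g.comp ι) := by
    refine (LinearEquiv.ofBijective
      (LinearMap.codRestrict (LinearMap.ker κ) (LinearMap.codRestrict (LinearMap.ker g)
        (ι.comp (LinearMap.ker (g.comp ι)).subtype) fun v => v.2)
        fun v => (Submodule.Quotient.mk_eq_zero _).mpr ⟨_, rfl⟩) ⟨?_, ?_⟩).symm
    · intro v w h
      exact Subtype.ext (hι (congrArg (fun z : LinearMap.ker κ => ((z : LinearMap.ker g) : V)) h))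
    · rintro ⟨⟨v, hv⟩, hv'⟩
      obtain ⟨w, hw⟩ := (Submodule.Quotient.mk_eq_zero _).mp hv'
      exact ⟨⟨w, by simpa [hw] using hv⟩, Subtype.ext (Subtype.ext hw)⟩
  let η : V ⧸ LinearMap.range ι →ₗ[K] N ⧸ LinearMap.range (g.comp ι) :=
    Submodule.mapQ _ _ g (by
      rintro _ ⟨v, rfl⟩
      exact ⟨v, rfl⟩)
  have hη : LinearMap.ker η = LinearMap.range κ := by
    ext z
    obtain ⟨v, rfl⟩ := Submodule.Quotient.mk_surjective _ z
    simp only [η, LinearMap.mem_ker, Submodule.mapQ_apply, Submodule.Quotient.mk_eq_zero,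
      LinearMap.mem_range]
    constructor
    · rintro ⟨w, hw⟩
      refine ⟨⟨v - ι w, by simp [← hw]⟩, (Submodule.Quotient.eq _).mpr ⟨-w, ?_⟩⟩
      show ι (-w) = (v - ι w) - v
      rw [map_neg]; abel
    · rintro ⟨⟨u, hu⟩, huv⟩
      obtain ⟨w, hw⟩ := (Submodule.Quotient.eq _).mp huv
      refine ⟨-w, ?_⟩
      simp only [LinearMap.comp_apply, map_neg, hw]
      simp [LinearMap.mem_ker.mp hu]
  let θ : N ⧸ LinearMap.range (g.comp ι) →ₗ[K] N ⧸ LinearMap.range g :=
    Submodule.factor (LinearMap.range_comp_le_range ι g)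
  have hθ : LinearMap.ker θ = LinearMap.range η := by
    ext z
    obtain ⟨v, rfl⟩ := Submodule.Quotient.mk_surjective _ z
    rw [LinearMap.mem_ker, LinearMap.mem_range]
    show (Submodule.Quotient.mk v : N ⧸ LinearMap.range g) = 0 ↔ _
    rw [Submodule.Quotient.mk_eq_zero, LinearMap.mem_range]
    constructor
    · rintro ⟨w, rfl⟩
      exact ⟨Submodule.Quotient.mk w, rfl⟩
    · rintro ⟨c, hc⟩
      obtain ⟨w, rfl⟩ := Submodule.Quotient.mk_surjective _ c
      obtain ⟨u, hu⟩ := (Submodule.Quotient.eq _).mp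
        (hc : (Submodule.Quotient.mk (g w) : N ⧸ LinearMap.range (g.comp ι)) =
          Submodule.Quotient.mk v)
      exact ⟨w - ι u, by rw [map_sub]; simp only [LinearMap.comp_apply] at hu; rw [hu]; abel⟩
  have e1 := κ.finrank_range_add_finrank_ker
  have e2 := η.finrank_range_add_finrank_ker
  have e3 := θ.finrank_range_add_finrank_ker
  have e4 : Module.finrank K (LinearMap.range θ) = Module.finrank K (N ⧸ LinearMap.range g) := by
    rw [LinearMap.range_eq_top.mpr (Submodule.factor_surjective _), finrank_top]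
  rw [hθ] at e3
  rw [hη] at e2
  have e5 := hκ.finrank_eq
  omega

/-- The constant coefficients in the basis of `Rm` over `k[y]`. -/
theorem finrank_quot_yh :
    Module.Finite K (M.Am K ⧸ Ideal.span {yh M K}) ∧
      Module.finrank K (M.Am K ⧸ Ideal.span {yh M K}) = M.d := by
  obtain ⟨b, hb⟩ := M.basis_m
  let T : (Fin M.d → k[X]) →ₗ[k] M.Rm :=
    ∑ i, ((LinearMap.mulRight k (b i)).comp (aeval M.y).toLinearMap).comp (LinearMap.proj i)
  have hT : ∀ c, T c = ∑ i, aeval M.y (c i) * b i := fun c => by simp [T]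
  let e := LinearEquiv.ofBijective T (by
    have : (⇑T) = fun c : Fin M.d → k[X] => ∑ i, aeval M.y (c i) * b i := funext hT
    rw [this]; exact hb)
  let ψ : M.Rm →ₗ[k] (Fin M.d → k) :=
    (LinearMap.pi fun i => (Polynomial.lcoeff k 0).comp (LinearMap.proj i)).comp
      e.symm.toLinearMap
  have hψe : ∀ c, ψ (T c) = fun i => (c i).coeff 0 := by
    intro c
    have : e.symm (T c) = c := e.symm_apply_apply c
    ext i
    simp [ψ, this]
  have hex : Function.Exact (LinearMap.mulLeft k M.y) ψ := by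
    intro r
    obtain ⟨c, rfl⟩ := hb.2 r
    dsimp only
    rw [← hT, hψe]
    constructor
    · intro h
      refine ⟨T fun i => (c i).divX, ?_⟩
      rw [LinearMap.mulLeft_apply, hT, hT, Finset.mul_sum]
      refine Finset.sum_congr rfl fun i _ => ?_
      conv_rhs => rw [← X_mul_divX_add (c i), congrFun h i]
      simp [mul_assoc]
    · rintro ⟨r', hr'⟩
      obtain ⟨c', rfl⟩ := hb.2 r'
      have : T (fun i => X * c' i) = T c := by
        rw [← hr', hT, LinearMap.mulLeft_apply, Finset.mul_sum]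
        simp [mul_assoc]
      rw [← hψe, ← this, hψe]
      ext i
      simp
  have hsurj : Function.Surjective ψ := fun v => ⟨T fun i => C (v i), by rw [hψe]; simp⟩
  have hexK := lTensor_exact K hex hsurj
  let Ψ : M.Am K →ₗ[K] K ⊗[k] (Fin M.d → k) := AlgebraTensorModule.map LinearMap.id ψ
  have hΨ : ∀ z, Ψ z = ψ.lTensor K z := by
    intro z
    induction z using TensorProduct.induction_on with
    | zero => simp
    | tmul a r => simp [Ψ]
    | add z z' h h' => simp [h, h']
  have hmul : ∀ z : M.Am K, (LinearMap.mulLeft k M.y).lTensor K z = yh M K * z := by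
    intro z
    induction z using TensorProduct.induction_on with
    | zero => simp
    | tmul a r => simp
    | add z z' h h' => simp [h, h', mul_add]
  have hker : LinearMap.ker Ψ = (Ideal.span {yh M K}).restrictScalars K := by
    ext z
    rw [LinearMap.mem_ker, hΨ, Submodule.restrictScalars_mem, Ideal.mem_span_singleton']
    refine (hexK z).trans ⟨?_, ?_⟩
    · rintro ⟨w, rfl⟩
      exact ⟨w, by rw [hmul, mul_comm]⟩
    · rintro ⟨w, rfl⟩
      exact ⟨w, by rw [hmul, mul_comm]⟩
  have hΨs : Function.Surjective Ψ := fun v => by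
    obtain ⟨z, hz⟩ := LinearMap.lTensor_surjective K hsurj v
    exact ⟨z, (hΨ z).trans hz⟩
  let e' : (M.Am K ⧸ Ideal.span {yh M K}) ≃ₗ[K] K ⊗[k] (Fin M.d → k) :=
    ((Submodule.Quotient.restrictScalarsEquiv K (Ideal.span {yh M K})).symm.trans
      (Submodule.quotEquivOfEq _ _ hker.symm)).trans (Ψ.quotKerEquivOfSurjective hΨs)
  exact ⟨Module.Finite.equiv e'.symm, by rw [e'.finrank_eq, Module.finrank_baseChange]; simp⟩

theorem finrank_quot_yMm (L : LineData M K) :
    Module.Finite K (L.Mm ⧸ (Ideal.span {yh M K}) • (⊤ : Submodule (M.Am K) L.Mm)) ∧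
      Module.finrank K (L.Mm ⧸ (Ideal.span {yh M K}) • (⊤ : Submodule (M.Am K) L.Mm)) = M.d := by
  obtain ⟨hfin, hd⟩ := finrank_quot_yh (M := M) (K := K)
  let I := Ideal.span {yh M K}
  haveI : Module.Finite K (M.Am K ⧸ I) := hfin
  haveI : IsArtinianRing (M.Am K ⧸ I) := IsArtinianRing.of_finite K _
  haveI : Module.Free (M.Am K ⧸ I) ((M.Am K ⧸ I) ⊗[M.Am K] L.Mm) := inferInstance
  obtain ⟨e⟩ := Module.Invertible.free_iff_linearEquiv.mp this
  let e' : (L.Mm ⧸ I • (⊤ : Submodule (M.Am K) L.Mm)) ≃ₗ[K] M.Am K ⧸ I :=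
    ((TensorProduct.quotTensorEquivQuotSMul L.Mm I).symm.trans
      (e.restrictScalars (M.Am K))).restrictScalars K
  exact ⟨Module.Finite.equiv e'.symm, e'.finrank_eq.trans hd⟩

theorem finite_ker_field (L : LineData M K) : Module.Finite K L.H0 := by
  obtain ⟨W, hW, hWmem⟩ := exists_fg_pr L
  haveI : Module.Finite K W := Module.Finite.iff_fg.mpr hW
  let g : L.H0 →ₗ[K] W := LinearMap.codRestrict W
    ((LinearMap.fst K L.Mp L.Mm).comp L.H0.subtype)
    fun v => hWmem _ _ (sub_eq_zero.mp (LinearMap.mem_ker.mp v.2))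
  refine Module.Finite.of_injective g fun v w h => ?_
  have h1 : (v : L.Mp × L.Mm).1 = (w : L.Mp × L.Mm).1 := congrArg Subtype.val h
  refine Subtype.ext (Prod.ext h1 (L.ρm_inj ?_))
  rw [← sub_eq_zero.mp (LinearMap.mem_ker.mp v.2), ← sub_eq_zero.mp (LinearMap.mem_ker.mp w.2), h1]

theorem chi_succ (L : LineData M K) (i : ℤ) :
    (L.twist (i + 1)).chi = (L.twist i).chi + M.d := by
  obtain ⟨hfin, hd⟩ := finrank_quot_yMm L
  let μ : L.Mm →ₗ[K] L.Mm :=
    ((LinearMap.lsmul (M.Am K) L.Mm) (yh M K)).restrictScalars K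
  let ι : L.Mp × L.Mm →ₗ[K] L.Mp × L.Mm := LinearMap.prodMap LinearMap.id μ
  have hμinj : Function.Injective μ := by
    intro v w h
    have := congrArg L.ρm h
    simp only [μ, LinearMap.coe_restrictScalars, LinearMap.lsmul_apply] at this
    rw [rhom_ring, rhom_ring, imA_yh] at this
    exact L.ρm_inj ((M.xU K)⁻¹.isUnit.smul_left_cancel.mp this)
  have hι : Function.Injective ι := fun v w h =>
    Prod.ext (congrArg Prod.fst h :) (hμinj (congrArg Prod.snd h :))
  have hdiff : (L.twist (i + 1)).diff.comp ι = (L.twist i).diff := by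
    refine LinearMap.ext fun v => ?_
    show L.ρp v.1 - (↑(M.xU K ^ (i + 1)) : M.Apm K) • L.ρm (yh M K • v.2) =
      L.ρp v.1 - (↑(M.xU K ^ i) : M.Apm K) • L.ρm v.2
    rw [rhom_ring, imA_yh, smul_smul, zpow_add_one, Units.val_mul, mul_assoc, Units.mul_inv,
      mul_one]
  let Q := L.Mm ⧸ (Ideal.span {yh M K}) • (⊤ : Submodule (M.Am K) L.Mm)
  let q : L.Mp × L.Mm →ₗ[K] Q :=
    (((Ideal.span {yh M K}) • (⊤ : Submodule (M.Am K) L.Mm)).mkQ.restrictScalars K).comp
      (LinearMap.snd K L.Mp L.Mm)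
  have hq : LinearMap.ker q = LinearMap.range ι := by
    ext v
    rw [LinearMap.mem_ker, LinearMap.mem_range]
    show (Submodule.Quotient.mk v.2 : Q) = 0 ↔ _
    rw [Submodule.Quotient.mk_eq_zero, Submodule.ideal_span_singleton_smul,
      Submodule.mem_smul_pointwise_iff_exists]
    constructor
    · rintro ⟨w, -, hw⟩
      exact ⟨(v.1, w), Prod.ext rfl hw⟩
    · rintro ⟨w, hw⟩
      exact ⟨w.2, Submodule.mem_top, congrArg Prod.snd hw⟩
  have hqs : Function.Surjective q :=
    (Submodule.mkQ_surjective _).comp Prod.snd_surjective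
  let eQ := (Submodule.quotEquivOfEq _ _ hq.symm).trans (q.quotKerEquivOfSurjective hqs)
  haveI : Module.Finite K ((L.Mp × L.Mm) ⧸ LinearMap.range ι) := Module.Finite.equiv eQ.symm
  haveI : Module.Finite K (LinearMap.ker (L.twist (i + 1)).diff) := finite_ker_field _
  haveI : Module.Finite K (LinearMap.ker ((L.twist (i + 1)).diff.comp ι)) := by
    rw [hdiff]; exact finite_ker_field (L.twist i)
  haveI : Module.Finite K (L.N ⧸ LinearMap.range (L.twist (i + 1)).diff) := finite_quot _
  haveI : Module.Finite K (L.N ⧸ LinearMap.range ((L.twist (i + 1)).diff.comp ι)) := by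
    rw [hdiff]; exact finite_quot (L.twist i)
  have h := index_comp (L.twist (i + 1)).diff ι hι
  have e1 : Module.finrank K (LinearMap.ker ((L.twist (i + 1)).diff.comp ι)) =
      Module.finrank K (L.twist i).H0 := by rw [hdiff]
  have e2 : Module.finrank K (L.N ⧸ LinearMap.range ((L.twist (i + 1)).diff.comp ι)) =
      Module.finrank K (L.twist i).H1 := by rw [hdiff]
  rw [e1, e2, eQ.finrank_eq, show Module.finrank K Q = M.d from hd] at h
  simp only [LineData.chi]
  exact eq_add_of_sub_eq h.symm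

theorem chi_twist_zero (L : LineData M K) : (L.twist 0).chi = L.chi := by
  have h : (L.twist 0).diff = L.diff := by
    refine LinearMap.ext fun v => ?_
    show L.ρp v.1 - (↑(M.xU K ^ (0 : ℤ)) : M.Apm K) • L.ρm v.2 = L.ρp v.1 - L.ρm v.2
    rw [zpow_zero, Units.val_one, one_smul]
  unfold LineData.chi LineData.H0 LineData.H1
  rw [h]

theorem chi_twist_eq (L : LineData M K) (i : ℤ) : (L.twist i).chi = L.chi + i * M.d := by
  induction i using Int.induction_on with
  | zero => rw [chi_twist_zero]; simp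
  | succ n ih => rw [chi_succ, ih]; ring
  | pred n ih =>
    have h := chi_succ L (-(n : ℤ) - 1)
    rw [sub_add_cancel, ih] at h
    linarith

end FLTAgent.Jac.Coh
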